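import Mathlib

/-!
# FFL core lemma: `1 + p Λ` has no `p`-power torsion (`p` odd)

Let `Λ` be a commutative ring in which the odd prime `p` is a non-zero-divisor and lies in the
Jacobson radical (in the form: `1 + p u` is a unit for all `u`).  If `g ≡ 1 mod p` and
`g ^ (p ^ k) = 1` then `g = 1`.

Application (helper41's note on the board): `Λ` = the dual of a Hopf order over an unramified
discrete valuation ring (a ring under convolution, finite over the base), `g` = evaluation at a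
point of the generic fibre which reduces to the identity.  Hence a connected Hopf order whose
generic fibre has trivial inertia action is trivial: no classification of Hopf orders of rank `p`
is needed.
-/

set_option autoImplicit false

namespace Fermat.Agent.FFLCore

variable {Λ : Type*} [CommRing Λ]

/-- `(1 + p z) ^ p = 1 + p ^ 2 z (1 + p u)` for an odd prime `p`. -/
theorem exists_one_add_mul_pow_eq {p : ℕ} (hp : p.Prime) (hp2 : p ≠ 2) (z : Λ) :
    ∃ u : Λ, (1 + (p : Λ) * z) ^ p = 1 + (p : Λ) ^ 2 * z * (1 + (p : Λ) * u) := by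
  have hp3 : 3 ≤ p := by
    have := hp.two_le
    omega
  obtain ⟨n, rfl⟩ : ∃ n, p = n + 3 := ⟨p - 3, by omega⟩
  -- every term of index `i + 2` is `p ^ 3 * z * w i`
  generalize hP : ((n + 3 : ℕ) : Λ) = P
  have hterm : ∀ i ∈ Finset.range (n + 2), ∃ w : Λ,
      (P * z) ^ (i + 2) * (1 : Λ) ^ (n + 3 - (i + 2)) *
        (((n + 3).choose (i + 2) : ℕ) : Λ) = P ^ 3 * z * w := by
    intro i hi
    rw [Finset.mem_range] at hi
    rcases Nat.lt_or_ge (i + 2) (n + 3) with h | h
    · obtain ⟨c, hc⟩ := hp.dvd_choose_self (by omega : i + 2 ≠ 0) h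
      refine ⟨(P * z) ^ i * z * (c : Λ), ?_⟩
      rw [hc, Nat.cast_mul, hP]
      ring
    · have hi2 : i + 2 = n + 3 := by omega
      refine ⟨P ^ n * z ^ (n + 2), ?_⟩
      rw [hi2, Nat.choose_self, Nat.cast_one, mul_pow]
      ring
  choose! w hw using hterm
  refine ⟨∑ i ∈ Finset.range (n + 2), w i, ?_⟩
  rw [add_comm (1 : Λ) _, add_pow]
  rw [show n + 3 + 1 = (n + 2) + 1 + 1 from rfl, Finset.sum_range_succ', Finset.sum_range_succ']
  rw [Finset.sum_congr rfl hw, ← Finset.mul_sum]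
  have e1 : ((n + 3).choose (0 + 1) : ℕ) = n + 3 := by simp
  rw [e1, hP]
  simp only [Nat.choose_zero_right, pow_zero, one_pow, mul_one, Nat.cast_one, zero_add, pow_one]
  ring

/-- **Core lemma**, exponent `p`. -/
theorem eq_zero_of_one_add_mul_pow_eq_one {p : ℕ} (hp : p.Prime) (hp2 : p ≠ 2)
    (hreg : ∀ a : Λ, (p : Λ) * a = 0 → a = 0) (hrad : ∀ u : Λ, IsUnit (1 + (p : Λ) * u))
    (z : Λ) (h : (1 + (p : Λ) * z) ^ p = 1) : z = 0 := by
  obtain ⟨u, hu⟩ := exists_one_add_mul_pow_eq hp hp2 z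
  rw [hu] at h
  have h1 : (p : Λ) * ((p : Λ) * (z * (1 + (p : Λ) * u))) = 0 := by
    have h2 : (p : Λ) ^ 2 * z * (1 + (p : Λ) * u) = 0 := by
      have := congrArg (fun x => x - 1) h
      simpa using this
    rw [← h2]
    ring
  have h3 : z * (1 + (p : Λ) * u) = 0 := hreg _ (hreg _ h1)
  exact (hrad u).mul_left_eq_zero.mp h3

/-- **Core lemma**: an element of `1 + p Λ` of `p`-power order is `1`. -/
theorem eq_one_of_pow_prime_pow_eq_one {p : ℕ} (hp : p.Prime) (hp2 : p ≠ 2)
    (hreg : ∀ a : Λ, (p : Λ) * a = 0 → a = 0) (hrad : ∀ u : Λ, IsUnit (1 + (p : Λ) * u))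
    (k : ℕ) (g : Λ) (hg : ∃ z : Λ, g = 1 + (p : Λ) * z) (h : g ^ p ^ k = 1) : g = 1 := by
  induction k generalizing g with
  | zero => simpa using h
  | succ k ih =>
    obtain ⟨z, rfl⟩ := hg
    -- `g ^ p` is again in `1 + p Λ`
    obtain ⟨u, hu⟩ := exists_one_add_mul_pow_eq hp hp2 z
    have h1 : ((1 + (p : Λ) * z) ^ p) ^ p ^ k = 1 := by
      rw [← pow_mul, ← pow_succ']
      exact h
    have h2 : (1 + (p : Λ) * z) ^ p = 1 :=
      ih _ ⟨(p : Λ) * z * (1 + (p : Λ) * u), by rw [hu]; ring⟩ h1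
    rw [eq_zero_of_one_add_mul_pow_eq_one hp hp2 hreg hrad z h2]
    simp

end Fermat.Agent.FFLCore
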